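import Fermat.Agent.S28.AN.Assemble
import Fermat.Agent.S28.Span
import Fermat.Agent.S28.IsIntegralY
import Fermat.Agent.S28.RedIndep
import Fermat.Agent.S28.QRed.Core

/-!
# S18, package RED (p=4, "S28+"), base layer: the `q`-expansion principle for the Igusa charts

For a prime `ℓ` and a level `N`, every element of a chart algebra `chartAlg N ℓ S`
(`S ⊆ {j, j⁻¹}`) has a `q`-expansion with coefficients in `ℤ_(ℓ)`.  This gives ring homomorphisms

* `qExpChart : chartAlg N ℓ S →+* ℤ_(ℓ)((q))` (injective, `iota (qExpChart x) = x`), and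
* `red ∘ qExpChart : chartAlg N ℓ S →+* 𝔽_ℓ((q))`, the **coefficientwise** reduction,

and, when `ℓ ∤ N`, the saturation statement `(*)`: the kernel of the coefficientwise reduction is
`(ℓ)` on each of the three charts `A_fin`, `A_inf`, `A_mid`.

Everything is built on the landed S28 tree (`Fermat.Agent.S28.QRed`, `exists_ANData`, ...).
-/

set_option autoImplicit false

noncomputable section

namespace Fermat.Agent.S18.RED1249

open ModularCurve ModularCurve.IgusaScheme Fermat.Agent.S28 Fermat.Agent.S28.QRed Polynomial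

/-- `j(q)` is a unit of `R((q))` for every coefficient ring. -/
theorem isUnit_jqModC (R : Type*) [CommRing R] : IsUnit (jqModC R) := by
  rw [jqModC]
  refine IsUnit.mul ?_ ?_
  · refine IsUnit.of_mul_eq_one (HahnSeries.single (1 : ℤ) (1 : R)) ?_
    rw [HahnSeries.single_mul_single]
    simp
  · refine IsUnit.map (HahnSeries.ofPowerSeries ℤ R) ?_
    rw [PowerSeries.isUnit_iff_constantCoeff, ← PowerSeries.coeff_zero_eq_constantCoeff,
      PowerSeries.coeff_map, PowerSeries.coeff_zero_eq_constantCoeff, constantCoeff_jNum]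
    simp

variable (ℓ : ℕ) [Fact ℓ.Prime]

set_option quotPrecheck false in
local notation "Rl" => ↥(GaloisRep.ratLocalizedAt ℓ)

/-! ### `ℤ_(ℓ)((q))` is integrally closed -/

instance isDiscreteValuationRing_ratLoc : IsDiscreteValuationRing Rl := by
  have hp : (Ideal.span {(ℓ : ℤ)}).IsPrime := by
    rw [Ideal.span_singleton_prime (by exact_mod_cast (Fact.out : ℓ.Prime).ne_zero)]
    exact Nat.prime_iff_prime_int.mp Fact.out
  have h0 : (Ideal.span {(ℓ : ℤ)}) ≠ ⊥ := by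
    rw [Ne, Ideal.span_singleton_eq_bot]
    exact_mod_cast (Fact.out : ℓ.Prime).ne_zero
  exact IsLocalization.AtPrime.isDiscreteValuationRing_of_dedekind_domain ℤ h0 Rl

instance isIntegrallyClosed_laurentSeries_ratLoc : IsIntegrallyClosed (LaurentSeries Rl) :=
  isIntegrallyClosed_of_isLocalization (LaurentSeries Rl)
    (Submonoid.powers (PowerSeries.X : PowerSeries Rl))
    (Submonoid.powers_le.mpr (mem_nonZeroDivisors_of_ne_zero PowerSeries.X_ne_zero))

/-- **`q`-expansion principle, algebraic core**: a fraction of Laurent series over `ℤ_(ℓ)` which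
is integral over `ℤ_(ℓ)((q))` has `ℓ`-integral coefficients. -/
theorem mem_range_iota_of_isIntegralElem {x : LaurentSeries ℚ} (hx : IsFrac ℓ x)
    (hint : (iota ℓ).IsIntegralElem x) : ∃ a : LaurentSeries Rl, iota ℓ a = x := by
  obtain ⟨f, g, hg, hfg⟩ := hx
  have hunit : ∀ y : nonZeroDivisors (LaurentSeries Rl), IsUnit (iota ℓ y) := fun y =>
    IsUnit.mk0 _ (iota_ne_zero ℓ (nonZeroDivisors.coe_ne_zero y))
  let ψ : FractionRing (LaurentSeries Rl) →+* LaurentSeries ℚ := IsLocalization.lift hunit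
  have hψ : ∀ a : LaurentSeries Rl, ψ (algebraMap _ _ a) = iota ℓ a := fun a =>
    IsLocalization.lift_eq hunit a
  have hψinj : Function.Injective ψ := ψ.injective
  have hg' : algebraMap (LaurentSeries Rl) (FractionRing (LaurentSeries Rl)) g ≠ 0 := by
    rw [Ne, map_eq_zero_iff _ (IsFractionRing.injective _ _)]
    exact hg
  set ξ : FractionRing (LaurentSeries Rl) :=
    algebraMap _ _ f / algebraMap _ _ g with hξ
  have hψξ : ψ ξ = x := by
    have h1 : ψ ξ * iota ℓ g = iota ℓ f := by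
      rw [← hψ g, ← map_mul, hξ, div_mul_cancel₀ _ hg', hψ]
    exact mul_right_cancel₀ (iota_ne_zero ℓ hg) (h1.trans hfg.symm)
  obtain ⟨p, hp, hpx⟩ := hint
  have hξint : IsIntegral (LaurentSeries Rl) ξ := by
    refine ⟨p, hp, hψinj ?_⟩
    rw [map_zero, Polynomial.hom_eval₂, hψξ]
    have : ψ.comp (algebraMap (LaurentSeries Rl) (FractionRing (LaurentSeries Rl))) = iota ℓ :=
      RingHom.ext hψ
    rw [this]
    exact hpx
  obtain ⟨a, ha⟩ := IsIntegrallyClosed.isIntegral_iff.mp hξint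
  exact ⟨a, by rw [← hψ, ha, hψξ]⟩

/-! ### The `q`-expansion map of a chart algebra -/

variable (N : ℕ) [NeZero N]

set_option quotPrecheck false in
local notation "FF" => ↥(modularFunctionFieldFull N)

omit [Fact ℓ.Prime] in
theorem jFull_mem_range_iota : ∃ a : LaurentSeries Rl, iota ℓ a = valF N (jFull N) :=
  ⟨jqModC Rl, iota_jqModC ℓ⟩

omit [Fact ℓ.Prime] in
theorem jFull_inv_mem_range_iota : ∃ a : LaurentSeries Rl, iota ℓ a = valF N (jFull N)⁻¹ := by
  obtain ⟨u, hu⟩ := isUnit_jqModC Rl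
  refine ⟨((u⁻¹ : (LaurentSeries Rl)ˣ) : LaurentSeries Rl), ?_⟩
  rw [map_inv₀, valF_jFull]
  apply eq_inv_of_mul_eq_one_left
  rw [← iota_jqModC ℓ, ← hu, ← map_mul, Units.inv_mul, map_one]

/-- The `q`-expansions of the elements of a chart algebra have `ℓ`-integral coefficients. -/
theorem valF_mem_range_iota_of_mem_chartAlg (S : Set FF)
    (hS : ∀ s ∈ S, ∃ a : LaurentSeries Rl, iota ℓ a = valF N s)
    (x : FF) (hx : x ∈ chartAlg N ℓ S) : ∃ a : LaurentSeries Rl, iota ℓ a = valF N x := by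
  have hx' : IsIntegral (Algebra.adjoin Rl S) x := hx
  obtain ⟨p, hp, hpx⟩ := hx'
  let φ : Algebra.adjoin Rl S →+* LaurentSeries ℚ :=
    (valF N).comp (algebraMap (Algebra.adjoin Rl S) FF)
  have hφ : ∀ a, ∃ b : LaurentSeries Rl, iota ℓ b = φ a := by
    rintro ⟨a, ha⟩
    show ∃ b : LaurentSeries Rl, iota ℓ b = valF N a
    induction ha using Algebra.adjoin_induction with
    | mem y hy => exact hS y hy
    | algebraMap r => exact ⟨HahnSeries.C r, by rw [valF_algebraMap, iota_C]⟩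
    | add y z _ _ hy hz =>
      obtain ⟨b, hb⟩ := hy
      obtain ⟨c, hc⟩ := hz
      exact ⟨b + c, by rw [map_add, map_add, hb, hc]⟩
    | mul y z _ _ hy hz =>
      obtain ⟨b, hb⟩ := hy
      obtain ⟨c, hc⟩ := hz
      exact ⟨b * c, by rw [map_mul, map_mul, hb, hc]⟩
  have hlifts : p.map φ ∈ Polynomial.lifts (iota ℓ) :=
    (Polynomial.lifts_iff_coeff_lifts _).mpr fun i => by
      rw [Polynomial.coeff_map]
      obtain ⟨b, hb⟩ := hφ (p.coeff i)
      exact ⟨b, hb⟩
  obtain ⟨q, hq, -, hqm⟩ := Polynomial.lifts_and_natDegree_eq_and_monic hlifts (hp.map φ)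
  refine mem_range_iota_of_isIntegralElem ℓ (isFrac_of_mem_full ℓ N x.2) ⟨q, hqm, ?_⟩
  rw [Polynomial.eval₂_eq_eval_map, hq, Polynomial.eval_map]
  have := congrArg (valF N) hpx
  rw [hom_eval₂, map_zero] at this
  exact this

/-- `iota` as an isomorphism onto its range. -/
def iotaEquiv : LaurentSeries Rl ≃+* (iota ℓ).range :=
  RingEquiv.ofBijective (iota ℓ).rangeRestrict
    ⟨fun _ _ h => iota_injective ℓ (congrArg Subtype.val h), (iota ℓ).rangeRestrict_surjective⟩

omit [Fact ℓ.Prime] in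
theorem coe_iotaEquiv (a : LaurentSeries Rl) :
    ((iotaEquiv ℓ a : (iota ℓ).range) : LaurentSeries ℚ) = iota ℓ a := rfl

omit [Fact ℓ.Prime] in
theorem iota_iotaEquiv_symm (y : (iota ℓ).range) :
    iota ℓ ((iotaEquiv ℓ).symm y) = (y : LaurentSeries ℚ) := by
  rw [← coe_iotaEquiv, RingEquiv.apply_symm_apply]

/-- The `q`-expansion homomorphism `chartAlg N ℓ S → ℤ_(ℓ)((q))`. -/
def qExpChart (S : Set FF) (hS : ∀ s ∈ S, ∃ a : LaurentSeries Rl, iota ℓ a = valF N s) :
    chartAlg N ℓ S →+* LaurentSeries Rl :=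
  (iotaEquiv ℓ).symm.toRingHom.comp
    (RingHom.codRestrict ((valF N).comp (chartAlg N ℓ S).val.toRingHom) (iota ℓ).range
      (fun x => RingHom.mem_range.mpr (valF_mem_range_iota_of_mem_chartAlg ℓ N S hS x x.2)))

theorem iota_qExpChart (S : Set FF) (hS : ∀ s ∈ S, ∃ a : LaurentSeries Rl, iota ℓ a = valF N s)
    (x : chartAlg N ℓ S) : iota ℓ (qExpChart ℓ N S hS x) = valF N (x : FF) := by
  rw [qExpChart, RingHom.comp_apply]
  exact iota_iotaEquiv_symm ℓ _

theorem qExpChart_injective (S : Set FF)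
    (hS : ∀ s ∈ S, ∃ a : LaurentSeries Rl, iota ℓ a = valF N s) :
    Function.Injective (qExpChart ℓ N S hS) := by
  intro x y h
  apply Subtype.ext
  apply valF_injective N
  rw [← iota_qExpChart ℓ N S hS, ← iota_qExpChart ℓ N S hS, h]

/-- The `q`-expansion of an element of a chart algebra is determined by its image in `ℚ((q))`. -/
theorem qExpChart_eq_of_iota_eq (S : Set FF)
    (hS : ∀ s ∈ S, ∃ a : LaurentSeries Rl, iota ℓ a = valF N s) (x : chartAlg N ℓ S)
    (a : LaurentSeries Rl) (h : iota ℓ a = valF N (x : FF)) : qExpChart ℓ N S hS x = a :=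
  iota_injective ℓ ((iota_qExpChart ℓ N S hS x).trans h.symm)

omit [NeZero N] in
theorem valF_mem_Vring_of_range_iota (S : Set FF)
    (hS : ∀ s ∈ S, ∃ a : LaurentSeries Rl, iota ℓ a = valF N s) :
    ∀ s ∈ S, valF N s ∈ Vring ℓ := fun s hs => by
  obtain ⟨a, ha⟩ := hS s hs
  rw [← ha]
  exact iota_mem_Vring ℓ a

/-- The reduction map `redChart` of the landed S28 tree is the coefficientwise reduction of the
`q`-expansion. -/
theorem redChart_eq_red_qExpChart (S : Set FF)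
    (hS : ∀ s ∈ S, ∃ a : LaurentSeries Rl, iota ℓ a = valF N s) (x : chartAlg N ℓ S) :
    redChart N ℓ S (valF_mem_Vring_of_range_iota ℓ N S hS) x = red ℓ (qExpChart ℓ N S hS x) := by
  have h : toV N ℓ S (valF_mem_Vring_of_range_iota ℓ N S hS) x =
      ⟨iota ℓ (qExpChart ℓ N S hS x), iota_mem_Vring ℓ _⟩ :=
    Subtype.ext ((coe_toV N ℓ S _ x).trans (iota_qExpChart ℓ N S hS x).symm)
  rw [redChart, RingHom.comp_apply, h, redV_iota]

/-! ### The three charts -/

omit [Fact ℓ.Prime] in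
theorem hS_fin : ∀ s ∈ ({jFull N} : Set FF), ∃ a : LaurentSeries Rl, iota ℓ a = valF N s := by
  rintro s rfl
  exact jFull_mem_range_iota ℓ N

omit [Fact ℓ.Prime] in
theorem hS_inf : ∀ s ∈ ({(jFull N)⁻¹} : Set FF), ∃ a : LaurentSeries Rl, iota ℓ a = valF N s := by
  rintro s rfl
  exact jFull_inv_mem_range_iota ℓ N

omit [Fact ℓ.Prime] in
theorem hS_mid :
    ∀ s ∈ ({jFull N, (jFull N)⁻¹} : Set FF), ∃ a : LaurentSeries Rl, iota ℓ a = valF N s := by
  rintro s (rfl | rfl)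
  · exact jFull_mem_range_iota ℓ N
  · exact jFull_inv_mem_range_iota ℓ N

/-- `q`-expansion on the chart `j ≠ ∞`. -/
def qExpFin : chartAlgFin N ℓ →+* LaurentSeries Rl := qExpChart ℓ N _ (hS_fin ℓ N)

/-- `q`-expansion on the chart `j ≠ 0`. -/
def qExpInf : chartAlgInf N ℓ →+* LaurentSeries Rl := qExpChart ℓ N _ (hS_inf ℓ N)

/-- `q`-expansion on the overlap. -/
def qExpMid : chartAlgMid N ℓ →+* LaurentSeries Rl := qExpChart ℓ N _ (hS_mid ℓ N)

theorem iota_qExpFin (x : chartAlgFin N ℓ) :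
    iota ℓ (qExpFin ℓ N x) = ((x : FF) : LaurentSeries ℚ) := iota_qExpChart ℓ N _ _ x

theorem iota_qExpInf (x : chartAlgInf N ℓ) :
    iota ℓ (qExpInf ℓ N x) = ((x : FF) : LaurentSeries ℚ) := iota_qExpChart ℓ N _ _ x

theorem iota_qExpMid (x : chartAlgMid N ℓ) :
    iota ℓ (qExpMid ℓ N x) = ((x : FF) : LaurentSeries ℚ) := iota_qExpChart ℓ N _ _ x

theorem qExpFin_jChartFin : qExpFin ℓ N (jChartFin N ℓ) = jqModC Rl :=
  qExpChart_eq_of_iota_eq ℓ N _ _ _ _ (iota_jqModC ℓ)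

theorem qExpMid_inclFin (x : chartAlgFin N ℓ) : qExpMid ℓ N (inclFin N ℓ x) = qExpFin ℓ N x :=
  qExpChart_eq_of_iota_eq ℓ N _ _ _ _ (by rw [iota_qExpFin, coe_chartIncl]; rfl)

theorem qExpMid_inclInf (x : chartAlgInf N ℓ) : qExpMid ℓ N (inclInf N ℓ x) = qExpInf ℓ N x :=
  qExpChart_eq_of_iota_eq ℓ N _ _ _ _ (by rw [iota_qExpInf, coe_chartIncl]; rfl)

/-! ### Saturation `(*)` when `ℓ ∤ N` -/

/-- The interface of the algebra core of S28 holds at every level prime to `ℓ`. -/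
theorem exists_interface (hℓN : ¬ ℓ ∣ N) :
    ∃ (n : ℕ) (β : Fin n → LaurentSeries Rl), Interface N ℓ n β := by
  obtain ⟨D⟩ := exists_ANData N
  exact ⟨_, _, interface_of_yUnit N ℓ _ (isIntegral_yUnit N ℓ hℓN D)
    (linearIndependent_red_yUnit N ℓ hℓN D) (span_of_ANData N D)⟩

/-- **`(*)` for `A_fin`**: the kernel of the coefficientwise reduction is `(ℓ)`. -/
theorem ker_red_qExpFin (hℓN : ¬ ℓ ∣ N) :
    RingHom.ker ((red ℓ).comp (qExpFin ℓ N)) = Ideal.span {(ℓ : chartAlgFin N ℓ)} := by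
  obtain ⟨n, β, H⟩ := exists_interface ℓ N hℓN
  rw [← ker_redChart N ℓ _ (valF_mem_Vring_of_range_iota ℓ N _ (hS_fin ℓ N))
    (fun z hzV hz => key_fin N ℓ H z hzV hz)]
  congr 1
  exact RingHom.ext fun x => (redChart_eq_red_qExpChart ℓ N _ (hS_fin ℓ N) x).symm

/-- **`(*)` for `A_inf`**: the kernel of the coefficientwise reduction is `(ℓ)`. -/
theorem ker_red_qExpInf (hℓN : ¬ ℓ ∣ N) :
    RingHom.ker ((red ℓ).comp (qExpInf ℓ N)) = Ideal.span {(ℓ : chartAlgInf N ℓ)} := by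
  obtain ⟨n, β, H⟩ := exists_interface ℓ N hℓN
  rw [← ker_redChart N ℓ _ (valF_mem_Vring_of_range_iota ℓ N _ (hS_inf ℓ N))
    (fun z hzV hz => key_inf N ℓ H z hzV hz)]
  congr 1
  exact RingHom.ext fun x => (redChart_eq_red_qExpChart ℓ N _ (hS_inf ℓ N) x).symm

/-- Saturation of the overlap chart in `V ∩ F`. -/
theorem key_mid {n : ℕ} {β : Fin n → LaurentSeries Rl} (H : Interface N ℓ n β) (z : FF)
    (hzV : valF N z ∈ Vring ℓ) (hz : (ℓ : FF) * z ∈ chartAlgMid N ℓ) :
    z ∈ chartAlgMid N ℓ := by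
  have hj0 := jFull_ne_zero N
  have hmid : (ℓ : FF) * z ∈ chartAlg N ℓ (insert (jFull N)⁻¹ {jFull N}) := by
    rw [show insert (jFull N)⁻¹ ({jFull N} : Set FF) = {jFull N, (jFull N)⁻¹}
      from Set.pair_comm _ _]
    exact hz
  obtain ⟨m, hm⟩ := exists_pow_mul_mem_chartAlg (Set.mem_singleton _) hj0 hmid
  have h1 : (ℓ : FF) * (jFull N ^ m * z) ∈ chartAlgFin N ℓ := by
    rw [show (ℓ : FF) * (jFull N ^ m * z) = jFull N ^ m * ((ℓ : FF) * z) by ring]
    exact hm
  have h2 : valF N (jFull N ^ m * z) ∈ Vring ℓ := by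
    rw [map_mul, map_pow]
    exact mul_mem (pow_mem (jFull_mem_Vring N ℓ) m) hzV
  have h3 : jFull N ^ m * z ∈ chartAlgFin N ℓ := key_fin N ℓ H _ h2 h1
  have h4 : z = (jFull N)⁻¹ ^ m * (jFull N ^ m * z) := by
    rw [← mul_assoc, ← mul_pow, inv_mul_cancel₀ hj0, one_pow, one_mul]
  rw [h4]
  exact mul_mem (pow_mem (subset_chartAlg N ℓ _ (by simp)) m)
    (chartAlg_mono N ℓ (sFin_subset N) h3)

/-- **`(*)` for `A_mid`**: the kernel of the coefficientwise reduction is `(ℓ)`. -/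
theorem ker_red_qExpMid (hℓN : ¬ ℓ ∣ N) :
    RingHom.ker ((red ℓ).comp (qExpMid ℓ N)) = Ideal.span {(ℓ : chartAlgMid N ℓ)} := by
  obtain ⟨n, β, H⟩ := exists_interface ℓ N hℓN
  rw [← ker_redChart N ℓ _ (valF_mem_Vring_of_range_iota ℓ N _ (hS_mid ℓ N))
    (fun z hzV hz => key_mid ℓ N H z hzV hz)]
  congr 1
  exact RingHom.ext fun x => (redChart_eq_red_qExpChart ℓ N _ (hS_mid ℓ N) x).symm

end Fermat.Agent.S18.RED1249
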